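import Fermat.Agent.S16.Dual.Lattice

/-!
# S16 (A5): the duality contract `ContractDUAL`
-/

set_option autoImplicit false

namespace Fermat.Agent.S16x

open ModularCurve CuspForm ModularFormClass CongruenceSubgroup

/-- lifting an additive character through a surjection onto a free module, up to `m` -/
theorem s16m_exists_lift {R T : Type*} [AddCommGroup R] [AddCommGroup T] [Module ℤ T]
    [Module.Free ℤ T] [Module.Finite ℤ T] (ev : R →+ T) (hev : Function.Surjective ev)
    (eis : R →+ ℤ) (m : ℤ) (h : ∀ P, ev P = 0 → m ∣ eis P) :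
    ∃ ψ : T →ₗ[ℤ] ℤ, ∀ P, m ∣ ψ (ev P) - eis P := by
  classical
  set b := Module.Free.chooseBasis ℤ T with hb
  choose Q hQ using fun i => hev (b i)
  refine ⟨b.constr ℤ (fun i => eis (Q i)), fun P => ?_⟩
  set c := b.repr (ev P) with hc
  have hsum : ev P = ev (c.sum fun i a => a • Q i) := by
    rw [map_finsuppSum]
    conv_lhs => rw [← b.linearCombination_repr (ev P)]
    rw [Finsupp.linearCombination_apply]
    refine Finsupp.sum_congr fun i _ => ?_
    rw [map_zsmul, hQ]
    exact int_smul_eq_zsmul _ _ _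
  have hker : ev (P - c.sum fun i a => a • Q i) = 0 := by
    rw [map_sub, ← hsum, sub_self]
  have h1 := h _ hker
  have h2 : b.constr ℤ (fun i => eis (Q i)) (ev P) = eis (c.sum fun i a => a • Q i) := by
    rw [b.constr_apply, map_finsuppSum]
    refine Finsupp.sum_congr fun i _ => ?_
    rw [map_zsmul]
  rw [h2, ← map_sub]
  have : (c.sum fun i a => a • Q i) - P = -(P - c.sum fun i a => a • Q i) := by abel
  rw [this, map_neg]
  exact (dvd_neg).mpr h1

variable (p : ℕ) [Fact p.Prime]

theorem s16_dual : ContractDUAL p := by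
  intro m hm hH
  obtain ⟨ψ, hψ⟩ := s16m_exists_lift (T := s16l_T p) (evalT p).toAddMonoidHom
    (evalT_surjective p) (eisEval p).toAddMonoidHom (m : ℤ) (fun P hP => hH P hP)
  obtain ⟨g, hg⟩ := s16l_perfect p ψ
  refine ⟨(g : CuspForm (Gamma0 p) 2), fun k hk => ?_⟩
  obtain ⟨P, hP1, hP2⟩ := s16l_exists_t p k hk
  refine ⟨s16l_pair p g (evalT p P), (hP1 g).symm, ?_⟩
  rw [hg, ← hP2]
  exact hψ P

end Fermat.Agent.S16x
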