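import Mathlib
import Fermat.Agent.S16.Contracts

/-!
# S16, stream [A], chunk (A2): the arithmetic of `sigmaP p k = ∑_{d ∣ k, p ∤ d} d`

* `s16a_sigmaP_one`, `s16a_sigmaP_mul_prime`, `s16a_sigmaP_mul_self`: the Hecke recursion satisfied
  by the Eisenstein coefficients.
-/

set_option autoImplicit false

namespace Fermat.Agent.S16x

/-- `sigmaP` as an unrestricted divisor sum of `g d = if p ∣ d then 0 else d`. -/
lemma s16a_sigmaP_eq (p k : ℕ) :
    sigmaP p k = ∑ d ∈ k.divisors, (if p ∣ d then (0 : ℤ) else (d : ℤ)) := by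
  unfold sigmaP
  rw [Finset.sum_filter]
  exact Finset.sum_congr rfl fun d _ => by split_ifs <;> simp_all

/-- Partition of the divisors of `l * n` (`l` prime): those dividing `n`, and `l * d` with
`d ∣ n`, `l * d ∤ n`. -/
lemma s16a_sum_divisors_prime_mul {l : ℕ} (hl : l.Prime) {n : ℕ} (hn : 0 < n) (g : ℕ → ℤ) :
    ∑ d ∈ (l * n).divisors, g d =
      ∑ d ∈ n.divisors, g d + ∑ d ∈ n.divisors with ¬ l * d ∣ n, g (l * d) := by
  classical
  have hln : l * n ≠ 0 := Nat.mul_ne_zero hl.ne_zero hn.ne'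
  have hinj : Set.InjOn (fun d => l * d) ((n.divisors.filter fun d => ¬ l * d ∣ n) : Set ℕ) :=
    fun a _ b _ h => Nat.eq_of_mul_eq_mul_left hl.pos h
  have hdisj : Disjoint n.divisors ((n.divisors.filter fun d => ¬ l * d ∣ n).image fun d => l * d) := by
    rw [Finset.disjoint_left]
    intro d hd hd'
    obtain ⟨e, he, rfl⟩ := Finset.mem_image.mp hd'
    exact (Finset.mem_filter.mp he).2 (Nat.dvd_of_mem_divisors hd)
  have hunion : (l * n).divisors =
      n.divisors ∪ ((n.divisors.filter fun d => ¬ l * d ∣ n).image fun d => l * d) := by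
    ext d
    simp only [Nat.mem_divisors, Finset.mem_union, Finset.mem_image, Finset.mem_filter]
    constructor
    · rintro ⟨hd, -⟩
      by_cases hdn : d ∣ n
      · exact Or.inl ⟨hdn, hn.ne'⟩
      · right
        have hld : l ∣ d := by
          by_contra hld
          have hcop : Nat.Coprime d l := (Nat.Coprime.symm ((Nat.Prime.coprime_iff_not_dvd hl).mpr hld))
          exact hdn (hcop.dvd_of_dvd_mul_left hd)
        obtain ⟨e, rfl⟩ := hld
        have hen : e ∣ n := Nat.dvd_of_mul_dvd_mul_left hl.pos hd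
        exact ⟨e, ⟨⟨hen, hn.ne'⟩, hdn⟩, rfl⟩
    · rintro (⟨hd, -⟩ | ⟨e, ⟨⟨he, -⟩, -⟩, rfl⟩)
      · exact ⟨Dvd.dvd.mul_left hd l, hln⟩
      · exact ⟨Nat.mul_dvd_mul_left l he, hln⟩
  rw [hunion, Finset.sum_union hdisj, Finset.sum_image hinj]

/-- The divisors `d` of `n` with `l * d ∣ n`. -/
lemma s16a_filter_mul_dvd {l : ℕ} (hl : l.Prime) {n : ℕ} (hn : 0 < n) :
    (n.divisors.filter fun d => l * d ∣ n) = if l ∣ n then (n / l).divisors else ∅ := by
  classical
  split_ifs with h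
  · obtain ⟨m, rfl⟩ := h
    have hm : 0 < m := Nat.pos_of_mul_pos_left hn |>.trans_le le_rfl |> fun _ => by
      rcases Nat.eq_zero_or_pos m with rfl | hm
      · simp at hn
      · exact hm
    rw [Nat.mul_div_cancel_left m hl.pos]
    ext d
    simp only [Finset.mem_filter, Nat.mem_divisors]
    constructor
    · rintro ⟨-, hd⟩
      exact ⟨Nat.dvd_of_mul_dvd_mul_left hl.pos hd, hm.ne'⟩
    · rintro ⟨hd, -⟩
      exact ⟨⟨Dvd.dvd.mul_left hd l, hn.ne'⟩, Nat.mul_dvd_mul_left l hd⟩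
  · ext d
    simp only [Finset.mem_filter, Nat.mem_divisors, Finset.notMem_empty, iff_false, not_and]
    intro _ hd
    exact h (Dvd.dvd.trans (Dvd.intro _ rfl) hd)

theorem s16a_sigmaP_one (p : ℕ) (hp : p.Prime) : sigmaP p 1 = 1 := by
  rw [s16a_sigmaP_eq]
  simp [hp.one_lt.ne']

theorem s16a_sigmaP_mul_prime (p : ℕ) (hp : p.Prime) (l : ℕ) (hl : l.Prime) (hlp : l ≠ p)
    (n : ℕ) (hn : 0 < n) :
    sigmaP p (l * n) = (1 + (l : ℤ)) * sigmaP p n -
      (if l ∣ n then (l : ℤ) * sigmaP p (n / l) else 0) := by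
  classical
  set g : ℕ → ℤ := fun d => if p ∣ d then (0 : ℤ) else (d : ℤ) with hg
  have hgl : ∀ d, g (l * d) = (l : ℤ) * g d := by
    intro d
    have hpl : ¬ p ∣ l := fun h => hlp ((Nat.prime_dvd_prime_iff_eq hp hl).mp h).symm
    have hiff : p ∣ l * d ↔ p ∣ d := by
      constructor
      · intro h
        rcases (Nat.Prime.dvd_mul hp).mp h with h | h
        · exact absurd h hpl
        · exact h
      · intro h; exact Dvd.dvd.mul_left h l
    simp only [hg]
    by_cases h : p ∣ d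
    · rw [if_pos h, if_pos (hiff.mpr h), mul_zero]
    · rw [if_neg h, if_neg (fun h' => h (hiff.mp h'))]; push_cast; ring
  have h1 := s16a_sum_divisors_prime_mul hl hn g
  have h2 : ∑ d ∈ n.divisors with ¬ l * d ∣ n, g (l * d) =
      (l : ℤ) * (∑ d ∈ n.divisors, g d - ∑ d ∈ (n.divisors.filter fun d => l * d ∣ n), g d) := by
    rw [← Finset.sum_filter_add_sum_filter_not n.divisors (fun d => l * d ∣ n) g]
    rw [add_sub_cancel_left, Finset.mul_sum]
    exact Finset.sum_congr rfl fun d _ => hgl d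
  rw [s16a_sigmaP_eq, s16a_sigmaP_eq, h1, h2, s16a_filter_mul_dvd hl hn]
  split_ifs with h
  · rw [s16a_sigmaP_eq]; ring
  · rw [Finset.sum_empty]; ring

theorem s16a_sigmaP_mul_self (p : ℕ) (hp : p.Prime) (n : ℕ) (hn : 0 < n) :
    sigmaP p (p * n) = sigmaP p n := by
  classical
  unfold sigmaP
  have hpn : p * n ≠ 0 := Nat.mul_ne_zero hp.ne_zero hn.ne'
  apply Finset.sum_congr _ fun _ _ => rfl
  ext d
  simp only [Finset.mem_filter, Nat.mem_divisors]
  constructor
  · rintro ⟨⟨hd, -⟩, hpd⟩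
    have hcop : Nat.Coprime d p := (Nat.Coprime.symm ((Nat.Prime.coprime_iff_not_dvd hp).mpr hpd))
    exact ⟨⟨hcop.dvd_of_dvd_mul_left hd, hn.ne'⟩, hpd⟩
  · rintro ⟨⟨hd, -⟩, hpd⟩
    exact ⟨⟨Dvd.dvd.mul_left hd p, hpn⟩, hpd⟩

end Fermat.Agent.S16x
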