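import Mathlib

/-!
# S16, stream [A]: an abstract perfectness lemma for pairings of free `ℤ`-modules

`L`, `T` finitely generated free `ℤ`-modules, `B : L →ₗ[ℤ] T →ₗ[ℤ] ℤ` a pairing with trivial left
and right kernels, and `L` *saturated* for `B` (if `N • ψ` is represented by an element of `L`
then so is `ψ`).  Then every `ψ : T →ₗ[ℤ] ℤ` is represented by an element of `L`.
-/

set_option autoImplicit false

namespace Fermat.Agent.S16A

open Module

variable {L T : Type*} [AddCommGroup L] [AddCommGroup T]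
  [Module.Free ℤ L] [Module.Finite ℤ L] [Module.Free ℤ T] [Module.Finite ℤ T]

/-- A pairing with trivial kernels between f.g. free `ℤ`-modules: the ranks agree. -/
theorem dlp_finrank_eq (B : L →ₗ[ℤ] T →ₗ[ℤ] ℤ)
    (hL : ∀ f, (∀ t, B f t = 0) → f = 0) (hT : ∀ t, (∀ f, B f t = 0) → t = 0) :
    finrank ℤ L = finrank ℤ T := by
  have hBinj : Function.Injective B := by
    rw [injective_iff_map_eq_zero]
    intro f hf
    exact hL f fun t => by rw [hf]; rfl
  have hFinj : Function.Injective B.flip := by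
    rw [injective_iff_map_eq_zero]
    intro t ht
    refine hT t fun f => ?_
    have := LinearMap.congr_fun ht f
    simpa using this
  have h1 : finrank ℤ L ≤ finrank ℤ (T →ₗ[ℤ] ℤ) :=
    LinearMap.finrank_le_finrank_of_injective hBinj
  have h2 : finrank ℤ T ≤ finrank ℤ (L →ₗ[ℤ] ℤ) :=
    LinearMap.finrank_le_finrank_of_injective hFinj
  rw [Module.finrank_linearMap_self] at h1 h2
  exact le_antisymm h1 h2

/-- **Perfectness from nondegeneracy + saturation.** -/
theorem dlp_surjective (B : L →ₗ[ℤ] T →ₗ[ℤ] ℤ)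
    (hL : ∀ f, (∀ t, B f t = 0) → f = 0) (hT : ∀ t, (∀ f, B f t = 0) → t = 0)
    (hsat : ∀ (ψ : T →ₗ[ℤ] ℤ) (N : ℕ) (f : L), 0 < N → (∀ t, B f t = (N : ℤ) * ψ t) →
      ∃ g : L, ∀ t, B g t = ψ t)
    (ψ : T →ₗ[ℤ] ℤ) : ∃ g : L, ∀ t, B g t = ψ t := by
  have hBinj : Function.Injective B := by
    rw [injective_iff_map_eq_zero]
    intro f hf
    exact hL f fun t => by rw [hf]; rfl
  have hrank : finrank ℤ (LinearMap.range B) = finrank ℤ (T →ₗ[ℤ] ℤ) := by
    rw [LinearMap.finrank_range_of_inj hBinj, Module.finrank_linearMap_self]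
    exact dlp_finrank_eq B hL hT
  have : Finite ((T →ₗ[ℤ] ℤ) ⧸ LinearMap.range B) :=
    Submodule.finiteQuotientOfFreeOfRankEq _ hrank
  set N : ℕ := Nat.card ((T →ₗ[ℤ] ℤ) ⧸ LinearMap.range B) with hN
  have hNpos : 0 < N := Nat.card_pos
  have hmem : N • ψ ∈ LinearMap.range B := by
    have h0 : N • (Submodule.Quotient.mk ψ : (T →ₗ[ℤ] ℤ) ⧸ LinearMap.range B) = 0 := by
      rw [hN]; exact card_nsmul_eq_zero'
    rw [← Submodule.Quotient.mk_smul, Submodule.Quotient.mk_eq_zero] at h0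
    exact h0
  obtain ⟨f, hf⟩ := hmem
  refine hsat ψ N f hNpos fun t => ?_
  rw [hf]
  simp

end Fermat.Agent.S16A
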