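import Fermat.Agent.S16.Dual.Poly
import Fermat.Agent.S16.Dual.Perfect
import Fermat.Agent.S16.Frontier

/-!
# S16 (A4): the pairing `L × T → ℤ`, `(f, t) ↦ a_1(t f)` is perfect
-/

set_option autoImplicit false

namespace Fermat.Agent.S16x

open ModularCurve CuspForm ModularFormClass CongruenceSubgroup

variable (p : ℕ) [Fact p.Prime]

instance s16l_neZero : NeZero p := ⟨(Fact.out : p.Prime).ne_zero⟩

/-- the lattice of cusp forms with integral `q`-expansion -/
abbrev s16l_L : Type := ↥(intLattice p 2)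

/-- the Hecke algebra acting on the lattice -/
abbrev s16l_T : Type := ↥(heckeLatticeAlgebra p ∅)

theorem s16l_evalT_apply (P : HeckeAlg) (x : s16l_L p) :
    ((((evalT p P : s16l_T p) : Module.End ℤ (s16l_L p)) x : s16l_L p) :
      CuspForm (Gamma0 p) 2) = s16p_act p P (x : CuspForm (Gamma0 p) 2) := rfl

/-- existence of the integral `n`-th coefficient -/
theorem s16l_exists_coeff (n : ℕ) (x : s16l_L p) :
    ∃ m : ℤ, qCoeff (x : CuspForm (Gamma0 p) 2) n = (m : ℂ) :=
  (Fermat.Agent.S49.mem_intLattice_iff' (x : CuspForm (Gamma0 p) 2)).mp x.2 n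

/-- the integral `n`-th coefficient of a lattice element -/
noncomputable def s16l_coeffFun (n : ℕ) (x : s16l_L p) : ℤ :=
  Classical.choose (s16l_exists_coeff p n x)

theorem s16l_coeffFun_spec (n : ℕ) (x : s16l_L p) :
    ((s16l_coeffFun p n x : ℤ) : ℂ) = qCoeff (x : CuspForm (Gamma0 p) 2) n :=
  (Classical.choose_spec (s16l_exists_coeff p n x)).symm

/-- the integral `n`-th coefficient as a linear functional -/
noncomputable def s16l_coeff (n : ℕ) : s16l_L p →ₗ[ℤ] ℤ where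
  toFun := s16l_coeffFun p n
  map_add' x y := by
    have : ((s16l_coeffFun p n (x + y) : ℤ) : ℂ) =
        ((s16l_coeffFun p n x + s16l_coeffFun p n y : ℤ) : ℂ) := by
      rw [Int.cast_add, s16l_coeffFun_spec, s16l_coeffFun_spec, s16l_coeffFun_spec,
        Submodule.coe_add, Fermat.Agent.S49.qCoeff_add']
    exact_mod_cast this
  map_smul' c x := by
    have : ((s16l_coeffFun p n (c • x) : ℤ) : ℂ) =
        ((c • s16l_coeffFun p n x : ℤ) : ℂ) := by
      rw [smul_eq_mul, Int.cast_mul, s16l_coeffFun_spec, s16l_coeffFun_spec,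
        Submodule.coe_smul, ← Int.cast_smul_eq_zsmul ℂ c, Fermat.Agent.S49.qCoeff_smul']
    simpa using (by exact_mod_cast this : s16l_coeffFun p n (c • x) = c • s16l_coeffFun p n x)

theorem s16l_coeff_spec (n : ℕ) (x : s16l_L p) :
    ((s16l_coeff p n x : ℤ) : ℂ) = qCoeff (x : CuspForm (Gamma0 p) 2) n :=
  s16l_coeffFun_spec p n x

/-- the pairing `(f, t) ↦ a_1(t f)` -/
noncomputable def s16l_pair : s16l_L p →ₗ[ℤ] s16l_T p →ₗ[ℤ] ℤ :=
  LinearMap.mk₂ ℤ (fun f t => s16l_coeff p 1 ((t : Module.End ℤ (s16l_L p)) f))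
    (fun f g t => by simp)
    (fun c f t => by simp)
    (fun f s t => by simp)
    (fun c f t => by simp)

theorem s16l_pair_apply (f : s16l_L p) (t : s16l_T p) :
    s16l_pair p f t = s16l_coeff p 1 ((t : Module.End ℤ (s16l_L p)) f) := rfl

/-- the pairing against `evalT P_k` computes the `k`-th coefficient -/
theorem s16l_exists_t (k : ℕ) (hk : 0 < k) : ∃ P : HeckeAlg,
    (∀ f : s16l_L p, ((s16l_pair p f (evalT p P) : ℤ) : ℂ) =
      qCoeff (f : CuspForm (Gamma0 p) 2) k) ∧ eisEval p P = sigmaP p k := by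
  obtain ⟨P, hP1, hP2⟩ := s16p_exists_poly p k hk
  refine ⟨P, fun f => ?_, hP2⟩
  rw [s16l_pair_apply, s16l_coeff_spec, s16l_evalT_apply]
  exact hP1 _

theorem s16l_left_nondeg (f : s16l_L p) (h : ∀ t : s16l_T p, s16l_pair p f t = 0) : f = 0 := by
  apply Subtype.ext
  apply Fermat.Agent.S49.ext_qCoeff
  intro n
  rcases Nat.eq_zero_or_pos n with rfl | hn
  · rw [Fermat.Agent.S49.qCoeff_zero_idx, Fermat.Agent.S49.qCoeff_zero_idx]
  · obtain ⟨P, hP, -⟩ := s16l_exists_t p n hn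
    rw [← hP f, h]
    simp only [Int.cast_zero, ZeroMemClass.coe_zero]
    have h0 : qCoeff (⇑(0 : CuspForm (Gamma0 p) 2)) n = 0 := by
      have := Fermat.Agent.S49.qCoeff_smul' (0 : ℂ) (0 : CuspForm (Gamma0 p) 2) n
      simpa using this
    exact h0.symm

theorem s16l_right_nondeg (t : s16l_T p) (h : ∀ f : s16l_L p, s16l_pair p f t = 0) : t = 0 := by
  apply Subtype.ext
  apply LinearMap.ext
  intro f
  apply s16l_left_nondeg p
  intro s
  have hcomm : (s : Module.End ℤ (s16l_L p)) * (t : Module.End ℤ (s16l_L p)) =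
      (t : Module.End ℤ (s16l_L p)) * (s : Module.End ℤ (s16l_L p)) := by
    have := congrArg Subtype.val (mul_comm s t)
    simpa using this
  have := h ((s : Module.End ℤ (s16l_L p)) f)
  rw [s16l_pair_apply] at this ⊢
  rw [← this]
  congr 1
  exact LinearMap.congr_fun hcomm f

theorem s16l_saturated (ψ : s16l_T p →ₗ[ℤ] ℤ) (N : ℕ) (f : s16l_L p) (hN : 0 < N)
    (h : ∀ t, s16l_pair p f t = (N : ℤ) * ψ t) : ∃ g : s16l_L p, ∀ t, s16l_pair p g t = ψ t := by
  have hN0 : (N : ℂ) ≠ 0 := Nat.cast_ne_zero.mpr hN.ne'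
  set g₀ : CuspForm (Gamma0 p) 2 := ((N : ℂ)⁻¹) • (f : CuspForm (Gamma0 p) 2) with hg₀
  have hmem : g₀ ∈ intLattice p 2 := by
    rw [Fermat.Agent.S49.mem_intLattice_iff']
    intro n
    rcases Nat.eq_zero_or_pos n with rfl | hn
    · exact ⟨0, by rw [Fermat.Agent.S49.qCoeff_zero_idx]; simp⟩
    · obtain ⟨P, hP, -⟩ := s16l_exists_t p n hn
      refine ⟨ψ (evalT p P), ?_⟩
      rw [hg₀, Fermat.Agent.S49.qCoeff_smul', ← hP f, h]
      push_cast
      field_simp
  refine ⟨⟨g₀, hmem⟩, fun t => ?_⟩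
  have hfg : f = (N : ℤ) • (⟨g₀, hmem⟩ : s16l_L p) := by
    apply Subtype.ext
    rw [Submodule.coe_smul, ← Int.cast_smul_eq_zsmul ℂ]
    simp only [hg₀, Int.cast_natCast]
    rw [smul_smul, mul_inv_cancel₀ hN0, one_smul]
  have h1 := h t
  rw [hfg, map_smul, LinearMap.smul_apply, smul_eq_mul] at h1
  have hNz : (N : ℤ) ≠ 0 := by exact_mod_cast hN.ne'
  exact mul_left_cancel₀ hNz h1

/-- **perfectness**: every functional on `T` is `t ↦ a_1(t g)` for some `g ∈ L` -/
theorem s16l_perfect (ψ : s16l_T p →ₗ[ℤ] ℤ) : ∃ g : s16l_L p, ∀ t, s16l_pair p g t = ψ t := by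
  haveI := intLattice.moduleFinite p
  haveI := intLattice.moduleFree p
  exact Fermat.Agent.S16A.dlp_surjective (s16l_pair p) (s16l_left_nondeg p) (s16l_right_nondeg p)
    (s16l_saturated p) ψ

end Fermat.Agent.S16x
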