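import Fermat.Agent.S16.Dual.Arith
import Fermat.Agent.S49.Forms

/-!
# S16 (A3): Hecke polynomials `P_k` with `a_1(P_k f) = a_k(f)` and Eisenstein value `σ'_p(k)`
-/

set_option autoImplicit false

namespace Fermat.Agent.S16x

open ModularCurve CuspForm ModularFormClass CongruenceSubgroup

variable (p : ℕ) [Fact p.Prime]

/-- the action of a Hecke polynomial on cusp forms -/
noncomputable def s16p_act (P : HeckeAlg) : Module.End ℂ (CuspForm (Gamma0 p) 2) :=
  ((heckeEvalForms p 2 P : heckeAlgebra p 2 ∅) : Module.End ℂ (CuspForm (Gamma0 p) 2))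

theorem s16p_act_one (f : CuspForm (Gamma0 p) 2) : s16p_act p 1 f = f := by
  simp [s16p_act]

theorem s16p_act_mul (P Q : HeckeAlg) (f : CuspForm (Gamma0 p) 2) :
    s16p_act p (P * Q) f = s16p_act p P (s16p_act p Q f) := by
  simp [s16p_act, map_mul]

theorem s16p_act_sub (P Q : HeckeAlg) (f : CuspForm (Gamma0 p) 2) :
    s16p_act p (P - Q) f = s16p_act p P f - s16p_act p Q f := by
  simp [s16p_act, map_sub]

theorem s16p_act_zero (f : CuspForm (Gamma0 p) 2) : s16p_act p 0 f = 0 := by
  simp [s16p_act]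

/-- constants of `HeckeAlg` -/
noncomputable def s16p_C (c : ℤ) : HeckeAlg := MvPolynomial.C c

theorem s16p_act_C (c : ℤ) (f : CuspForm (Gamma0 p) 2) :
    s16p_act p (s16p_C c) f = (c : ℂ) • f := by
  simp only [s16p_act, s16p_C, heckeEvalForms_C]
  rw [Subalgebra.coe_algebraMap, Algebra.algebraMap_eq_smul_one, LinearMap.smul_apply,
    Module.End.one_apply, Int.cast_smul_eq_zsmul]

theorem s16p_act_X (l : Nat.Primes) (f : CuspForm (Gamma0 p) 2) :
    s16p_act p (heckeGen l) f =
      ((Fermat.Agent.S49.Tp p l.2 : heckeAlgebra p 2 ∅) : Module.End ℂ (CuspForm (Gamma0 p) 2)) f := by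
  have : heckeEvalForms p 2 (heckeGen l) = Fermat.Agent.S49.Tp p l.2 :=
    heckeEvalForms_heckeGen p 2 l
  rw [s16p_act, this]

omit [Fact p.Prime] in
theorem s16p_eisEval_X (l : Nat.Primes) : eisEval p (heckeGen l) = eisensteinSystem p l := by
  simp [eisEval, heckeGen]

omit [Fact p.Prime] in
theorem s16p_eisEval_C (c : ℤ) : eisEval p (s16p_C c) = c := by
  simp [eisEval, s16p_C]

theorem s16p_exists_poly (k : ℕ) (hk : 0 < k) : ∃ P : HeckeAlg,
    (∀ f : CuspForm (Gamma0 p) 2,
      qCoeff (((heckeEvalForms p 2 P : heckeAlgebra p 2 ∅) : Module.End ℂ (CuspForm (Gamma0 p) 2)) f) 1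
        = qCoeff f k) ∧ eisEval p P = sigmaP p k := by
  have hp : p.Prime := Fact.out
  change ∃ P : HeckeAlg, (∀ f : CuspForm (Gamma0 p) 2, qCoeff (s16p_act p P f) 1 = qCoeff f k) ∧
    eisEval p P = sigmaP p k
  induction k using Nat.strong_induction_on with
  | _ k ih =>
    rcases eq_or_ne k 1 with rfl | hk1
    · refine ⟨1, fun f => by rw [s16p_act_one], ?_⟩
      rw [map_one, s16a_sigmaP_one p hp]
    · obtain ⟨L, n, hn⟩ : ∃ L : Nat.Primes, (L : ℕ) ∣ k :=
        ⟨⟨k.minFac, Nat.minFac_prime hk1⟩, Nat.minFac_dvd k⟩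
      have hl : (L : ℕ).Prime := L.2
      have hnpos : 0 < n := by
        rcases Nat.eq_zero_or_pos n with rfl | h
        · simp at hn; omega
        · exact h
      have hnlt : n < k := by
        rw [hn]; nlinarith [hl.two_le]
      obtain ⟨Pn, hPn1, hPn2⟩ := ih n hnlt hnpos
      have hsys : eisensteinSystem p L = if (L : ℕ) = p then 1 else 1 + ((L : ℕ) : ℤ) := by
        by_cases hlp : (L : ℕ) = p
        · rw [if_pos hlp, eisensteinSystem_of_dvd (by rw [hlp])]
        · rw [if_neg hlp, eisensteinSystem_of_not_dvd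
            (fun h => hlp ((Nat.prime_dvd_prime_iff_eq hl hp).mp h))]
      have heN : Fermat.Agent.S49.eN p (L : ℕ) = if (L : ℕ) = p then 0 else ((L : ℕ) : ℤ) := by
        unfold Fermat.Agent.S49.eN
        by_cases hlp : (L : ℕ) = p
        · rw [if_pos hlp, if_pos (by rw [hlp])]
        · rw [if_neg hlp, if_neg (fun h => hlp ((Nat.prime_dvd_prime_iff_eq hl hp).mp h))]
      by_cases hdvd : (L : ℕ) ∣ n
      · obtain ⟨n', hn'⟩ := hdvd
        have hn'pos : 0 < n' := by
          rcases Nat.eq_zero_or_pos n' with rfl | h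
          · simp at hn'; omega
          · exact h
        have hn'lt : n' < k := by
          have : n' < n := by rw [hn']; nlinarith [hl.two_le]
          omega
        have hdiv : n / (L : ℕ) = n' := by rw [hn', Nat.mul_div_cancel_left _ hl.pos]
        obtain ⟨Pn', hPn'1, hPn'2⟩ := ih n' hn'lt hn'pos
        refine ⟨Pn * heckeGen L - s16p_C (Fermat.Agent.S49.eN p (L : ℕ)) * Pn', ?_, ?_⟩
        · intro f
          rw [s16p_act_sub, Fermat.Agent.S49.qCoeff_sub', s16p_act_mul, hPn1, s16p_act_X,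
            Fermat.Agent.S49.qCoeff_Tp, s16p_act_mul, s16p_act_C, Fermat.Agent.S49.qCoeff_smul',
            hPn'1, if_pos ⟨n', hn'⟩, hdiv, hn]
          ring
        · rw [map_sub, map_mul, map_mul, hPn2, hPn'2, s16p_eisEval_X, s16p_eisEval_C, hn, hsys, heN]
          by_cases hlp : (L : ℕ) = p
          · rw [if_pos hlp, if_pos hlp, hlp, s16a_sigmaP_mul_self p hp n hnpos]
            ring
          · rw [if_neg hlp, if_neg hlp,
              s16a_sigmaP_mul_prime p hp (L : ℕ) hl hlp n hnpos, if_pos ⟨n', hn'⟩, hdiv]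
            ring
      · refine ⟨Pn * heckeGen L, ?_, ?_⟩
        · intro f
          rw [s16p_act_mul, hPn1, s16p_act_X, Fermat.Agent.S49.qCoeff_Tp, if_neg hdvd, hn]
          ring
        · rw [map_mul, hPn2, s16p_eisEval_X, hn, hsys]
          by_cases hlp : (L : ℕ) = p
          · rw [if_pos hlp, hlp, s16a_sigmaP_mul_self p hp n hnpos]
            ring
          · rw [if_neg hlp,
              s16a_sigmaP_mul_prime p hp (L : ℕ) hl hlp n hnpos, if_neg hdvd]
            ring

end Fermat.Agent.S16x
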